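import Mathlib

/-!
# S14 / A3 (backup, helper92): abstract core

`K ⊆ L` a finite Galois extension of number fields, `w` a prime of `𝓞 L` over the prime `v` of
`𝓞 K`.

* `ramificationIdx_eq_one_of_inertia`: trivial inertia group ⟹ `e(w | v) = 1`;
* `count_map_eq`: `count_w (a) = e(w | v) * count_v (a)` for `a ∈ 𝓞 K`, `a ≠ 0`;
* `dvd_count_of_pow_eq`: trivial inertia group and `t ^ p = a` with `t ∈ 𝓞 L` ⟹ `p ∣ count_v (a)`.
-/

set_option autoImplicit false

open NumberField IsDedekindDomain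
open scoped Pointwise

namespace Fermat.Agent.S14.H92

section Core

variable {K L : Type*} [Field K] [NumberField K] [Field L] [NumberField L] [Algebra K L]

/-- multiplicity of a prime in an ideal of a Dedekind domain, as `emultiplicity`. -/
theorem count_eq_emultiplicity {R : Type*} [CommRing R] [IsDedekindDomain R]
    (v : HeightOneSpectrum R) {I : Ideal R} (hI : I ≠ ⊥) :
    (((Associates.mk v.asIdeal).count (Associates.mk I).factors : ℕ) : ℕ∞) =
      emultiplicity v.asIdeal I := by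
  classical
  rw [Ideal.count_associates_factors_eq hI v.isPrime v.ne_bot,
    UniqueFactorizationMonoid.emultiplicity_eq_count_normalizedFactors v.irreducible hI,
    normalize_eq]

/-- `count_w (a) = e(w | v) * count_v (a)`. -/
theorem count_map_eq (v : HeightOneSpectrum (𝓞 K)) (w : HeightOneSpectrum (𝓞 L))
    [w.asIdeal.LiesOver v.asIdeal] (a : 𝓞 K) (ha : a ≠ 0) :
    (Associates.mk w.asIdeal).count
        (Associates.mk (Ideal.span {algebraMap (𝓞 K) (𝓞 L) a})).factors =
      w.asIdeal.ramificationIdx (𝓞 K) *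
        (Associates.mk v.asIdeal).count (Associates.mk (Ideal.span {a})).factors := by
  have ha' : Ideal.span {a} ≠ ⊥ := by simpa using ha
  have hb : algebraMap (𝓞 K) (𝓞 L) a ≠ 0 := by
    simpa using ha
  have hb' : Ideal.span {algebraMap (𝓞 K) (𝓞 L) a} ≠ ⊥ := by simpa using hb
  have hvmap : Ideal.map (algebraMap (𝓞 K) (𝓞 L)) v.asIdeal ≠ ⊥ :=
    Ideal.map_ne_bot_of_ne_bot v.ne_bot
  have h1 := Ideal.IsDedekindDomain.emultiplicity_map_eq_ramificationIdx'_mul
    (v := v.asIdeal) (w := w.asIdeal) ha' v.irreducible w.irreducible w.ne_bot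
  rw [Ideal.map_span, Set.image_singleton,
    Ideal.ramificationIdx'_eq_ramificationIdx' v.asIdeal w.asIdeal hvmap,
    ← count_eq_emultiplicity w hb', ← count_eq_emultiplicity v ha'] at h1
  exact_mod_cast h1

/-- `count_w (t ^ p) = p * count_w (t)`. -/
theorem count_pow_eq {R : Type*} [CommRing R] [IsDedekindDomain R]
    (w : HeightOneSpectrum R) (t : R) (ht : t ≠ 0) (p : ℕ) :
    (Associates.mk w.asIdeal).count (Associates.mk (Ideal.span {t ^ p})).factors =
      p * (Associates.mk w.asIdeal).count (Associates.mk (Ideal.span {t})).factors := by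
  have ht' : Ideal.span {t} ≠ ⊥ := by simpa using ht
  have h0 : Associates.mk (Ideal.span {t}) ≠ 0 := by
    rwa [Ne, Associates.mk_eq_zero]
  rw [← Ideal.span_singleton_pow, Associates.mk_pow]
  exact Associates.count_pow h0 w.associates_irreducible p

variable [IsGalois K L]

/-- trivial inertia group ⟹ `e = 1`. -/
theorem ramificationIdx_eq_one_of_inertia (P : Ideal (𝓞 L)) [P.IsPrime]
    (h : ∀ σ : Gal(L/K), σ ∈ P.inertia Gal(L/K) → σ = 1) :
    P.ramificationIdx (𝓞 K) = 1 := by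
  have hG : IsGaloisGroup Gal(L/K) (𝓞 K) (𝓞 L) :=
    IsGaloisGroup.of_isFractionRing Gal(L/K) (𝓞 K) (𝓞 L) K L
  have hcard : Nat.card (P.inertia Gal(L/K)) = 1 := by
    rw [Nat.card_eq_one_iff_unique]
    refine ⟨⟨fun a b => ?_⟩, ⟨1⟩⟩
    apply Subtype.ext
    rw [h a.1 a.2, h b.1 b.2]
  have h1 := Ideal.card_inertia_eq_ramificationIdxIn (G := Gal(L/K)) (P.under (𝓞 K)) P
  rw [hcard] at h1
  rw [← Ideal.ramificationIdxIn_eq_ramificationIdx (P.under (𝓞 K)) P Gal(L/K)]
  exact h1.symm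

/-- trivial inertia group at `w` and `t ^ p = a` with `t ∈ 𝓞 L` ⟹ `p ∣ count_v (a)`. -/
theorem dvd_count_of_pow_eq (p : ℕ) (hp : 0 < p) (v : HeightOneSpectrum (𝓞 K))
    (w : HeightOneSpectrum (𝓞 L))
    [w.asIdeal.LiesOver v.asIdeal]
    (h : ∀ σ : Gal(L/K), σ ∈ w.asIdeal.inertia Gal(L/K) → σ = 1)
    (a : 𝓞 K) (ha : a ≠ 0) (t : 𝓞 L) (ht : t ^ p = algebraMap (𝓞 K) (𝓞 L) a) :
    p ∣ (Associates.mk v.asIdeal).count (Associates.mk (Ideal.span {a})).factors := by
  have hb : algebraMap (𝓞 K) (𝓞 L) a ≠ 0 := by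
    simpa using ha
  have ht0 : t ≠ 0 := by
    rintro rfl
    rw [zero_pow hp.ne'] at ht
    exact hb ht.symm
  have h1 := count_map_eq v w a ha
  rw [ramificationIdx_eq_one_of_inertia (K := K) w.asIdeal h, one_mul, ← ht,
    count_pow_eq w t ht0 p] at h1
  exact ⟨_, h1.symm⟩

end Core

end Fermat.Agent.S14.H92
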