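import Mathlib
import Fermat.Prelude.Def_FLTPrelim_Ramification
import Fermat.Agent.S14.H70.Defs
import Fermat.Agent.S14.H92.Core

/-!
# S14 / A3 (backup, helper92): Kummer glue inside `ℚ̄`

`K ⊆ ℚ̄` a number field containing a primitive `p`-th root of unity, `θ ∈ ℚ̄` with
`θ ^ p = a ∈ 𝓞 K`. If every element of `Gal(ℚ̄/ℚ)` acting trivially modulo a prime `Q` of `ℤ̄`
fixes `θ`, then `p ∣ cnt v a` for the prime `v = Q ∩ 𝓞 K`.
-/

set_option autoImplicit false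

open NumberField IsDedekindDomain IntermediateField

namespace Fermat.Agent.S14.H92

local notation "Qb" => AlgebraicClosure ℚ
local notation "G" => (AlgebraicClosure ℚ ≃ₐ[ℚ] AlgebraicClosure ℚ)
local notation "Zb" => integralClosure ℤ (AlgebraicClosure ℚ)

theorem isGalois_rat_Qb : IsGalois ℚ Qb := by
  have h : (DivisionRing.toRatAlgebra : Algebra ℚ Qb) = AlgebraicClosure.instAlgebra ℚ :=
    Subsingleton.elim _ _
  rw [h]
  infer_instance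

section Setup

variable (K : IntermediateField ℚ Qb)

theorem isAlgebraic_Qb : Algebra.IsAlgebraic K Qb :=
  haveI := isGalois_rat_Qb
  Algebra.IsAlgebraic.tower_top (K := ℚ) K

theorem normal_Qb : Normal K Qb :=
  haveI := isGalois_rat_Qb
  Normal.tower_top_of_normal ℚ K Qb

/-- `K(θ)/K` is normal when `θ ^ p ∈ K` and `K` contains a primitive `p`-th root of unity. -/
theorem normal_adjoin_kummer {p : ℕ} (hp : 0 < p) (ζ : Qb) (hζ : IsPrimitiveRoot ζ p)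
    (hζK : ζ ∈ K) (θ : Qb) (hθK : θ ^ p ∈ K) : Normal K (K⟮θ⟯) := by
  have := normal_Qb K
  have : NeZero p := ⟨hp.ne'⟩
  rw [normal_iff_forall_map_le]
  intro σ
  rw [adjoin_map, Set.image_singleton, adjoin_simple_le_iff]
  by_cases h0 : θ = 0
  · rw [h0, map_zero]
    exact zero_mem _
  · have h1 : σ (θ ^ p) = θ ^ p := by
      have := σ.commutes (⟨θ ^ p, hθK⟩ : K)
      exact this
    have h2 : (σ θ / θ) ^ p = 1 := by
      rw [div_pow, ← map_pow, h1, div_self (pow_ne_zero p h0)]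
    obtain ⟨i, -, hi⟩ := hζ.eq_pow_of_pow_eq_one h2
    have h3 : σ θ = ζ ^ i * θ := by
      rw [hi, div_mul_cancel₀ _ h0]
    rw [h3]
    have hζ' : ζ ∈ K⟮θ⟯ := by
      have : algebraMap K Qb ⟨ζ, hζK⟩ ∈ K⟮θ⟯ := IntermediateField.algebraMap_mem _ _
      exact this
    exact mul_mem (pow_mem hζ' i) (mem_adjoin_simple_self K θ)

end Setup

section ToZb

variable (F : Type*) [Field F] [NumberField F] [Algebra F Qb]

/-- the map `𝓞 F → ℤ̄` induced by an embedding `F → ℚ̄`. -/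
noncomputable def toZb : 𝓞 F →+* Zb :=
  ((algebraMap F Qb).comp (algebraMap (𝓞 F) F)).codRestrict Zb
    (fun x => map_isIntegral_int (algebraMap F Qb) (RingOfIntegers.isIntegral_coe x))

omit [NumberField F] in
@[simp]
theorem coe_toZb (x : 𝓞 F) : ((toZb F x : Zb) : Qb) = algebraMap F Qb (x : F) := rfl

end ToZb

section Main

variable {p : ℕ}

theorem cnt_dvd_of_fix_aux (hp : 0 < p)
    (K : IntermediateField ℚ Qb) [NumberField K]
    (E : IntermediateField K Qb) [NumberField E] [IsGalois K E]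
    (hfd : FiniteDimensional ℚ (E.restrictScalars ℚ))
    (θ : Qb) (hθE : θ ∈ E) (hgen : ∀ σ : E ≃ₐ[K] E, σ ⟨θ, hθE⟩ = ⟨θ, hθE⟩ → σ = 1)
    (a : 𝓞 K) (ha : a ≠ 0) (hθ : θ ^ p = ((a : K) : Qb))
    (v : HeightOneSpectrum (𝓞 K))
    (Q : Ideal Zb) [Q.IsPrime]
    (hQv : ∀ (x : 𝓞 K) (b : Zb), (b : Qb) = ((x : K) : Qb) → (b ∈ Q ↔ x ∈ v.asIdeal))
    (hlift : ∀ (L : IntermediateField ℚ Qb) [FiniteDimensional ℚ L] (σ₀ : G),
       (∀ b : Zb, (b : Qb) ∈ L → σ₀ • b - b ∈ Q) →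
        ∃ σ : G, (∀ x ∈ L, σ x = σ₀ x) ∧ ∀ b : Zb, σ • b - b ∈ Q)
    (hfix : ∀ σ : G, (∀ b : Zb, σ • b - b ∈ Q) → σ θ = θ) :
    p ∣ H70.cnt v a := by
  have : Normal K Qb := normal_Qb K
  -- the prime `w` of `𝓞 E`
  let ι : 𝓞 E →+* Zb := toZb E
  have hιK : ∀ x : 𝓞 K, ((ι (algebraMap (𝓞 K) (𝓞 E) x) : Zb) : Qb) = ((x : K) : Qb) :=
    fun x => rfl
  let w₀ : Ideal (𝓞 E) := Q.comap ι
  have hw₀prime : w₀.IsPrime := Ideal.comap_isPrime ι Q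
  have hunder : ∀ x : 𝓞 K, algebraMap (𝓞 K) (𝓞 E) x ∈ w₀ ↔ x ∈ v.asIdeal :=
    fun x => hQv x _ (hιK x)
  have hw₀ne : w₀ ≠ ⊥ := by
    obtain ⟨x, hxv, hx0⟩ := Submodule.exists_mem_ne_zero_of_ne_bot v.ne_bot
    intro hbot
    have h1 : algebraMap (𝓞 K) (𝓞 E) x ∈ w₀ := (hunder x).mpr hxv
    rw [hbot, Ideal.mem_bot] at h1
    exact hx0 ((map_eq_zero_iff _ (FaithfulSMul.algebraMap_injective (𝓞 K) (𝓞 E))).mp h1)
  let w : HeightOneSpectrum (𝓞 E) := ⟨w₀, hw₀prime, hw₀ne⟩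
  have : w.asIdeal.LiesOver v.asIdeal := ⟨by ext x; exact (hunder x).symm⟩
  -- the element `t`
  have hθint : IsIntegral ℤ (⟨θ, hθE⟩ : E) := by
    have h1 : IsIntegral ℤ (θ ^ p) := by
      rw [hθ]
      exact map_isIntegral_int (algebraMap K Qb) (RingOfIntegers.isIntegral_coe a)
    have h2 : IsIntegral ℤ θ := h1.of_pow hp
    exact (isIntegral_algebraMap_iff (algebraMap E Qb).injective).mp h2
  let t : 𝓞 E := ⟨⟨θ, hθE⟩, hθint⟩
  have ht : t ^ p = algebraMap (𝓞 K) (𝓞 E) a := by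
    apply RingOfIntegers.ext
    apply Subtype.ext
    exact hθ
  -- the inertia group is trivial
  have hin : ∀ σ : Gal(E/K), σ ∈ w.asIdeal.inertia Gal(E/K) → σ = 1 := by
    intro σ₀ hσ₀
    rw [AddSubgroup.mem_inertia] at hσ₀
    apply hgen
    let σ₁ : G := (σ₀.liftNormal Qb).restrictScalars ℚ
    have hσ₁ : ∀ x : E, σ₁ (x : Qb) = ((σ₀ x : E) : Qb) :=
      fun x => σ₀.liftNormal_commutes Qb x
    obtain ⟨σ, hσL, hσQ⟩ := @hlift (E.restrictScalars ℚ) hfd σ₁ (by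
      intro b hb
      have hbE : (b : Qb) ∈ E := hb
      have hbint : IsIntegral ℤ (⟨b, hbE⟩ : E) :=
        (isIntegral_algebraMap_iff (algebraMap E Qb).injective).mp b.2
      let x : 𝓞 E := ⟨⟨b, hbE⟩, hbint⟩
      have h2 : ι ((σ₀ • x : 𝓞 E) - x) ∈ Q := hσ₀ x
      have h3 : σ₁ • b - b = ι ((σ₀ • x : 𝓞 E) - x) := by
        apply Subtype.ext
        rw [map_sub]
        exact congrArg (· - (b : Qb)) (hσ₁ ⟨b, hbE⟩)
      rw [h3]
      exact h2)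
    have h3 : σ θ = θ := hfix σ hσQ
    have h4 : σ₁ θ = θ := by
      rw [← hσL θ hθE]
      exact h3
    have h5 := hσ₁ ⟨θ, hθE⟩
    exact Subtype.ext (h5.symm.trans h4)
  exact dvd_count_of_pow_eq p hp v w hin a ha t ht

/-- Kummer glue: if every `σ ∈ Gal(ℚ̄/ℚ)` acting trivially modulo the prime `Q` of `ℤ̄` fixes
`θ`, where `θ ^ p = a ∈ 𝓞 K` and `ζ_p ∈ K`, then `p ∣ cnt v a` for the prime `v` of `𝓞 K` below
`Q`. The lifting property `hlift` is the `Q`-part of the dictionary lemma `exists_lift_inertia`. -/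
theorem cnt_dvd_of_fix (hp : 0 < p)
    (K : IntermediateField ℚ Qb) [NumberField K]
    (ζ : Qb) (hζ : IsPrimitiveRoot ζ p) (hζK : ζ ∈ K) (θ : Qb) (a : 𝓞 K) (ha : a ≠ 0)
    (hθ : θ ^ p = ((a : K) : Qb))
    (v : HeightOneSpectrum (𝓞 K))
    (Q : Ideal Zb) [Q.IsPrime]
    (hQv : ∀ (x : 𝓞 K) (b : Zb), (b : Qb) = ((x : K) : Qb) → (b ∈ Q ↔ x ∈ v.asIdeal))
    (hlift : ∀ (L : IntermediateField ℚ Qb) [FiniteDimensional ℚ L] (σ₀ : G),
       (∀ b : Zb, (b : Qb) ∈ L → σ₀ • b - b ∈ Q) →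
        ∃ σ : G, (∀ x ∈ L, σ x = σ₀ x) ∧ ∀ b : Zb, σ • b - b ∈ Q)
    (hfix : ∀ σ : G, (∀ b : Zb, σ • b - b ∈ Q) → σ θ = θ) :
    p ∣ H70.cnt v a := by
  have hθK : θ ^ p ∈ K := by
    rw [hθ]
    exact SetLike.coe_mem _
  have : Algebra.IsAlgebraic K Qb := isAlgebraic_Qb K
  have : Normal K Qb := normal_Qb K
  have : FiniteDimensional K (K⟮θ⟯) :=
    adjoin.finiteDimensional (Algebra.IsIntegral.isIntegral θ)
  have hfdQ : FiniteDimensional ℚ (K⟮θ⟯) := Module.Finite.trans K _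
  have : NumberField (K⟮θ⟯) := ⟨⟩
  have : Normal K (K⟮θ⟯) := normal_adjoin_kummer K hp ζ hζ hζK θ hθK
  have : IsGalois K (K⟮θ⟯) := ⟨⟩
  refine cnt_dvd_of_fix_aux hp K (K⟮θ⟯) hfdQ θ (mem_adjoin_simple_self K θ) ?_ a ha hθ v Q
    hQv hlift hfix
  intro σ hσ
  have h1 : (σ : K⟮θ⟯ →ₐ[K] K⟮θ⟯) = AlgHom.id K _ := by
    apply adjoin_algHom_ext
    intro x hx
    rw [Set.mem_singleton_iff] at hx
    subst hx
    exact hσ
  ext x
  exact congrArg (fun f : K⟮θ⟯ →ₐ[K] K⟮θ⟯ => ((f x : K⟮θ⟯) : Qb)) h1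

end Main

section Skeleton

/-- **A3** (skeleton statement `cnt_dvd_of_inertia_fixes`), with the two dictionary statements
of package A0 (`exists_valuationSubring_over`, `exists_lift_inertia`) as explicit hypotheses in
their exact skeleton shapes. -/
theorem cnt_dvd_of_inertia_fixes_of_dict {p : ℕ} [Fact p.Prime]
    (hA0 : ∀ (K : IntermediateField ℚ Qb) [NumberField K]
        (v : HeightOneSpectrum (𝓞 K)) (ℓ : ℕ) (_ : ℓ.Prime) (_ : (ℓ : 𝓞 K) ∈ v.asIdeal),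
        ∃ (Q : Ideal (integralClosure ℤ Qb)) (_ : Q.IsPrime) (A : ValuationSubring Qb),
          A.LiesOverPrime ℓ ∧
          (∀ (x : 𝓞 K) (b : integralClosure ℤ Qb), (b : Qb) = ((x : K) : Qb) →
            (b ∈ Q ↔ x ∈ v.asIdeal)) ∧
          (∀ σ : G, (∀ b : integralClosure ℤ Qb, σ • b ∈ Q ↔ b ∈ Q) →
            σ ∈ A.decompositionSubgroup ℚ) ∧
          (∀ σ : G, (∀ b : integralClosure ℤ Qb, σ • b - b ∈ Q) → σ ∈ A.inertiaSubgroupIn ℚ))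
    (hA0lift : ∀ (L : IntermediateField ℚ Qb) [FiniteDimensional ℚ L]
        (Q : Ideal (integralClosure ℤ Qb)) [Q.IsPrime] (σ₀ : G)
        (_ : ∀ b : integralClosure ℤ Qb, (b : Qb) ∈ L → σ₀ • b - b ∈ Q),
        ∃ σ : G, (∀ x ∈ L, σ x = σ₀ x) ∧ ∀ b : integralClosure ℤ Qb, σ • b - b ∈ Q)
    (K : IntermediateField ℚ Qb) [NumberField K]
    (ζ : Qb) (hζ : IsPrimitiveRoot ζ p) (hζK : ζ ∈ K) (θ : Qb) (a : 𝓞 K) (ha : a ≠ 0)
    (hθ : θ ^ p = ((a : K) : Qb)) (ℓ : ℕ) (hℓ : ℓ.Prime)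
    (hI : ∀ A : ValuationSubring Qb, A.LiesOverPrime ℓ → ∀ σ ∈ A.inertiaSubgroupIn ℚ, σ θ = θ)
    (v : HeightOneSpectrum (𝓞 K)) (hv : (ℓ : 𝓞 K) ∈ v.asIdeal) : p ∣ H70.cnt v a := by
  obtain ⟨Q, hQ, A, hA, hQv, -, hin⟩ := hA0 K v ℓ hℓ hv
  exact cnt_dvd_of_fix (Fact.out : p.Prime).pos K ζ hζ hζK θ a ha hθ v Q hQv
    (fun L _ σ₀ h => hA0lift L Q σ₀ h) (fun σ hσ => hI A hA σ (hin σ hσ))

end Skeleton

end Fermat.Agent.S14.H92
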