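import Mathlib
import Fermat.Agent.S14.H4.Dictionary
import Fermat.Agent.S14.H92.Glue

/-!
# S14 / A3 (backup, helper92): hypothesis-free skeleton statement

Independent second proof of `cnt_dvd_of_inertia_fixes` (finite-level route through
`Gal(K(θ)/K)` and `Ideal.card_inertia_eq_ramificationIdxIn`), from the landed A0 dictionary.
-/

set_option autoImplicit false

open NumberField IsDedekindDomain

namespace Fermat.Agent.S14.H92

local notation "Qb" => AlgebraicClosure ℚ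

/-- **A3** (skeleton statement, verbatim). -/
theorem cnt_dvd_of_inertia_fixes {p : ℕ} [Fact p.Prime]
    (K : IntermediateField ℚ Qb) [NumberField K]
    (ζ : Qb) (hζ : IsPrimitiveRoot ζ p) (hζK : ζ ∈ K) (θ : Qb) (a : 𝓞 K) (ha : a ≠ 0)
    (hθ : θ ^ p = ((a : K) : Qb)) (ℓ : ℕ) (hℓ : ℓ.Prime)
    (hI : ∀ A : ValuationSubring Qb, A.LiesOverPrime ℓ → ∀ σ ∈ A.inertiaSubgroupIn ℚ, σ θ = θ)
    (v : HeightOneSpectrum (𝓞 K)) (hv : (ℓ : 𝓞 K) ∈ v.asIdeal) : p ∣ H70.cnt v a :=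
  cnt_dvd_of_inertia_fixes_of_dict
    (fun K _ v ℓ hℓ hv => H4.exists_valuationSubring_over K v ℓ hℓ hv)
    (fun L _ Q _ σ₀ h => H4.exists_lift_inertia L Q σ₀ h)
    K ζ hζ hζK θ a ha hθ ℓ hℓ hI v hv

end Fermat.Agent.S14.H92
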